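import Mathlib
import Fermat.Prelude.Def_GaloisRep_Adic
import Fermat.Agent.N4F.G.Burnside

/-!
# S31 input [REP]: trace rigidity for residually absolutely irreducible representations

`A` a local ring with residue field `k`, `V` a finite free `A`-module, `ρ : G →* End_A V` a
representation of a monoid whose double base change to `k̄ ⊗[k] (k ⊗[A] V)` has no invariant
subspace other than `⊥`, `⊤` (`ResidAbsIrr ρ`).

* `span_range_eq_top` : the `ρ g` span `End_A V` over `A` (Burnside over `k̄`, descent to `k`,
  Nakayama).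
* `eq_zero_of_forall_trace_mul_eq_zero` : `tr (X * ρ g) = 0` for all `g` implies `X = 0`.
* `map_eq_one_of_forall_trace_mul_eq` : `tr ρ(τ g) = tr ρ(g)` for all `g` implies `ρ τ = 1`.
* `eq_one_of_forall_trace_mul_eq` : the same for a `GaloisRepAdic A` with
  `ρ.residual.IsAbsolutelyIrreducible`.
-/

set_option autoImplicit false

open Module
open scoped TensorProduct

namespace Fermat.Agent.S31.TraceRigid

section Mat

variable {ι : Type*} [Fintype ι] [DecidableEq ι]

/-- Every linear functional on square matrices is `Y ↦ tr (Z * Y)` for some matrix `Z`. -/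
theorem exists_trace_mul_eq {K : Type*} [CommRing K] (f : Matrix ι ι K →ₗ[K] K) :
    ∃ Z : Matrix ι ι K, ∀ Y, f Y = (Z * Y).trace := by
  refine ⟨Matrix.of fun j i => f (Matrix.single i j 1), fun Y => ?_⟩
  conv_lhs => rw [Matrix.matrix_eq_sum_single Y]
  simp only [map_sum, Matrix.trace, Matrix.diag_apply, Matrix.mul_apply, Matrix.of_apply]
  rw [Finset.sum_comm]
  refine Finset.sum_congr rfl fun j _ => Finset.sum_congr rfl fun i _ => ?_
  have : Matrix.single i j (Y i j) = (Y i j) • Matrix.single i j (1 : K) := by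
    rw [Matrix.smul_single, smul_eq_mul, mul_one]
  rw [this, map_smul, smul_eq_mul, mul_comm]

/-- Descent of spanning along a field extension: if the entrywise images of `S ⊆ M_ι(K)` span
`M_ι(K')` over `K'`, then `S` spans `M_ι(K)` over `K`. -/
theorem span_eq_top_of_map {K K' : Type*} [Field K] [CommRing K'] [Nontrivial K'] (φ : K →+* K')
    (S : Set (Matrix ι ι K))
    (h : Submodule.span K' ((fun Y : Matrix ι ι K => Y.map φ) '' S) = ⊤) :
    Submodule.span K S = ⊤ := by
  by_contra hne
  obtain ⟨f, hf0, hf⟩ := Submodule.exists_le_ker_of_lt_top _ (lt_top_iff_ne_top.mpr hne)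
  obtain ⟨Z, hZ⟩ := exists_trace_mul_eq f
  -- the functional `tr (Z.map φ * ·)` vanishes on the span, hence everywhere
  have h1 : ∀ Y' ∈ Submodule.span K' ((fun Y : Matrix ι ι K => Y.map φ) '' S),
      (Z.map φ * Y').trace = 0 := by
    intro Y' hY'
    induction hY' using Submodule.span_induction with
    | mem y hy =>
      obtain ⟨Y, hYS, rfl⟩ := hy
      have h2 : f Y = 0 := hf (Submodule.subset_span hYS)
      rw [hZ] at h2
      rw [← Matrix.map_mul, ← AddMonoidHom.map_trace φ, h2, map_zero]
    | zero => simp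
    | add x y _ _ hx hy => rw [Matrix.mul_add, Matrix.trace_add, hx, hy, add_zero]
    | smul c x _ hx => rw [Matrix.mul_smul, Matrix.trace_smul, hx, smul_zero]
  have h3 : Z.map φ = 0 := by
    rw [Matrix.ext_iff_trace_mul_right]
    intro x
    rw [h1 x (by rw [h]; trivial), Matrix.zero_mul, Matrix.trace_zero]
  have h4 : Z = 0 := by
    ext i j
    have := congrFun (congrFun h3 i) j
    simp only [Matrix.map_apply, Matrix.zero_apply] at this ⊢
    exact (map_eq_zero φ).mp this
  apply hf0
  ext Y
  rw [hZ, h4, Matrix.zero_mul, Matrix.trace_zero]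
  rfl

/-- Nakayama for matrices: if the residues of `S ⊆ M_ι(A)` span `M_ι(k)`, then `S` spans
`M_ι(A)`. -/
theorem span_eq_top_of_residue {A : Type*} [CommRing A] [IsLocalRing A] (S : Set (Matrix ι ι A))
    (h : Submodule.span (IsLocalRing.ResidueField A)
      ((fun Y : Matrix ι ι A => Y.map (IsLocalRing.residue A)) '' S) = ⊤) :
    Submodule.span A S = ⊤ := by
  rw [eq_top_iff]
  apply Submodule.le_of_le_smul_of_le_jacobson_bot (I := IsLocalRing.maximalIdeal A)
  · exact Module.Finite.fg_top
  · exact (IsLocalRing.jacobson_eq_maximalIdeal _ bot_ne_top).ge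
  · intro Y _
    have key : ∀ y ∈ Submodule.span (IsLocalRing.ResidueField A)
        ((fun Y : Matrix ι ι A => Y.map (IsLocalRing.residue A)) '' S),
        ∃ Y' ∈ Submodule.span A S, Y'.map (IsLocalRing.residue A) = y := by
      intro y hy
      induction hy using Submodule.span_induction with
      | mem y hy =>
        obtain ⟨Y, hYS, rfl⟩ := hy
        exact ⟨Y, Submodule.subset_span hYS, rfl⟩
      | zero => exact ⟨0, Submodule.zero_mem _, by ext i j; simp⟩
      | add x y _ _ hx hy =>
        obtain ⟨X', hX', rfl⟩ := hx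
        obtain ⟨Y', hY', rfl⟩ := hy
        exact ⟨X' + Y', Submodule.add_mem _ hX' hY', by ext i j; simp⟩
      | smul c x _ hx =>
        obtain ⟨X', hX', rfl⟩ := hx
        obtain ⟨c', rfl⟩ := IsLocalRing.residue_surjective c
        exact ⟨c' • X', Submodule.smul_mem _ _ hX', by ext i j; simp⟩
    obtain ⟨Y', hY', hY'eq⟩ := key (Y.map (IsLocalRing.residue A)) (by rw [h]; trivial)
    have hY : Y = Y' + (Y - Y') := by abel
    rw [hY]
    apply Submodule.add_mem_sup hY'
    rw [Matrix.matrix_eq_sum_single (Y - Y')]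
    refine Submodule.sum_mem _ fun i _ => Submodule.sum_mem _ fun j _ => ?_
    have h1 : Matrix.single i j ((Y - Y') i j) = ((Y - Y') i j) • Matrix.single i j (1 : A) := by
      rw [Matrix.smul_single, smul_eq_mul, mul_one]
    rw [h1]
    refine Submodule.smul_mem_smul ?_ Submodule.mem_top
    rw [← IsLocalRing.residue_eq_zero_iff]
    have h2 := congrFun (congrFun hY'eq i) j
    simp only [Matrix.map_apply] at h2
    rw [Matrix.sub_apply, map_sub, h2, sub_self]

end Mat

section Core

variable {A : Type*} [CommRing A] [IsLocalRing A] {V : Type*} [AddCommGroup V] [Module A V]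
  [Module.Free A V] [Module.Finite A V] {G : Type*} [Monoid G]

/-- Residual absolute irreducibility of an integral representation, phrased on the double base
change `k̄ ⊗[k] (k ⊗[A] V)` (the shape of `ResidualGaloisRep.IsAbsolutelyIrreducible` for
`GaloisRepAdic.residual`). -/
def ResidAbsIrr (ρ : G →* Module.End A V) : Prop :=
  ∀ W : Submodule (AlgebraicClosure (IsLocalRing.ResidueField A))
      (AlgebraicClosure (IsLocalRing.ResidueField A) ⊗[IsLocalRing.ResidueField A]
        (IsLocalRing.ResidueField A ⊗[A] V)),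
    (∀ g, ∀ x ∈ W, (((ρ g).baseChange (IsLocalRing.ResidueField A)).baseChange
      (AlgebraicClosure (IsLocalRing.ResidueField A))) x ∈ W) → W = ⊥ ∨ W = ⊤

/-- **Burnside + Nakayama.** A residually absolutely irreducible representation on a finite free
module over a local ring spans the full endomorphism ring. -/
theorem span_range_eq_top [Nontrivial V] (ρ : G →* Module.End A V) (hirr : ResidAbsIrr ρ) :
    Submodule.span A (Set.range ρ) = ⊤ := by
  classical
  let k := IsLocalRing.ResidueField A
  let kbar := AlgebraicClosure k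
  let ι := Module.Free.ChooseBasisIndex A V
  let b : Basis ι A V := Module.Free.chooseBasis A V
  let b' : Basis ι k (k ⊗[A] V) := Algebra.TensorProduct.basis k b
  let B : Basis ι kbar (kbar ⊗[k] (k ⊗[A] V)) := Algebra.TensorProduct.basis kbar b'
  have : Nonempty ι := b.index_nonempty
  have : Nontrivial (kbar ⊗[k] (k ⊗[A] V)) :=
    nontrivial_of_ne (B (Classical.arbitrary ι)) 0 (B.ne_zero _)
  -- the representation over `k̄`
  let ρ'' : Representation kbar G (kbar ⊗[k] (k ⊗[A] V)) :=
    { toFun := fun g => ((ρ g).baseChange k).baseChange kbar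
      map_one' := by rw [map_one, LinearMap.baseChange_one, LinearMap.baseChange_one]
      map_mul' := fun g h => by rw [map_mul, LinearMap.baseChange_mul, LinearMap.baseChange_mul] }
  have hB : Submodule.span kbar (Set.range ρ'') = ⊤ :=
    Fermat.Agent.N4F.G.Burnside.span_range_eq_top ρ'' hirr
  let S : Set (Matrix ι ι A) := Set.range fun g => LinearMap.toMatrix b b (ρ g)
  -- step 1
  have h1 : Submodule.span kbar ((fun Y : Matrix ι ι k => Y.map (algebraMap k kbar)) ''
      ((fun Y : Matrix ι ι A => Y.map (IsLocalRing.residue A)) '' S)) = ⊤ := by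
    rw [eq_top_iff]
    have h2 : (⊤ : Submodule kbar (Matrix ι ι kbar)) =
        (Submodule.span kbar (Set.range ρ'')).map (LinearMap.toMatrix B B).toLinearMap := by
      rw [hB, Submodule.map_top, LinearMap.range_eq_top.mpr (LinearMap.toMatrix B B).surjective]
    rw [h2, Submodule.map_span]
    apply Submodule.span_mono
    rintro _ ⟨_, ⟨g, rfl⟩, rfl⟩
    refine ⟨(LinearMap.toMatrix b b (ρ g)).map (IsLocalRing.residue A),
      ⟨_, ⟨g, rfl⟩, rfl⟩, ?_⟩
    show _ = LinearMap.toMatrix B B (((ρ g).baseChange k).baseChange kbar)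
    rw [LinearMap.toMatrix_baseChange, LinearMap.toMatrix_baseChange]
    rfl
  have h3 := span_eq_top_of_map (algebraMap k kbar) _ h1
  have h4 : Submodule.span A S = ⊤ := span_eq_top_of_residue S h3
  -- back to endomorphisms
  rw [eq_top_iff]
  intro f _
  have h5 : LinearMap.toMatrix b b f ∈ Submodule.span A S := by rw [h4]; trivial
  have h6 : S = (LinearMap.toMatrix b b).toLinearMap '' Set.range ρ := by
    ext M
    simp [S]
  rw [h6, ← Submodule.map_span] at h5
  obtain ⟨f', hf', hff'⟩ := h5
  have : f' = f := (LinearMap.toMatrix b b).injective hff'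
  rwa [← this]


/-- If `tr (X * ρ g) = 0` for every `g`, then `X = 0`. -/
theorem eq_zero_of_forall_trace_mul_eq_zero (ρ : G →* Module.End A V) (hirr : ResidAbsIrr ρ)
    (X : Module.End A V) (h : ∀ g, LinearMap.trace A V (X * ρ g) = 0) : X = 0 := by
  classical
  rcases subsingleton_or_nontrivial V with hV | hV
  · exact LinearMap.ext fun x => Subsingleton.elim _ _
  have hspan := span_range_eq_top ρ hirr
  -- the functional `Y ↦ tr (X * Y)` vanishes on the span
  have h1 : ∀ Y : Module.End A V, LinearMap.trace A V (X * Y) = 0 := by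
    intro Y
    have hY : Y ∈ Submodule.span A (Set.range ρ) := by rw [hspan]; trivial
    induction hY using Submodule.span_induction with
    | mem y hy =>
      obtain ⟨g, rfl⟩ := hy
      exact h g
    | zero => rw [mul_zero, map_zero]
    | add x y _ _ hx hy => rw [mul_add, map_add, hx, hy, add_zero]
    | smul c x _ hx => rw [mul_smul_comm, map_smul, hx, smul_zero]
  let b : Basis (Module.Free.ChooseBasisIndex A V) A V := Module.Free.chooseBasis A V
  have h2 : LinearMap.toMatrix b b X = 0 := by
    rw [Matrix.ext_iff_trace_mul_right]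
    intro M
    have h3 := h1 ((LinearMap.toMatrix b b).symm M)
    rw [LinearMap.trace_eq_matrix_trace A b, LinearMap.toMatrix_mul,
      LinearEquiv.apply_symm_apply] at h3
    rw [h3, Matrix.zero_mul, Matrix.trace_zero]
  exact (LinearMap.toMatrix b b).map_eq_zero_iff.mp h2

/-- **Trace rigidity.** If `tr ρ(τ g) = tr ρ(g)` for every `g`, then `ρ τ = 1`. -/
theorem map_eq_one_of_forall_trace_mul_eq (ρ : G →* Module.End A V) (hirr : ResidAbsIrr ρ) (τ : G)
    (h : ∀ g, LinearMap.trace A V (ρ (τ * g)) = LinearMap.trace A V (ρ g)) : ρ τ = 1 := by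
  have h1 := eq_zero_of_forall_trace_mul_eq_zero ρ hirr (ρ τ - 1) fun g => by
    rw [sub_mul, one_mul, map_sub, ← map_mul, h g, sub_self]
  exact sub_eq_zero.mp h1

end Core

section Galois

/-- **[REP]** for S31: a `GaloisRepAdic` with absolutely irreducible residual representation is
trivial at any `τ` with `tr ρ(τ g) = tr ρ(g)` for all `g`. -/
theorem eq_one_of_forall_trace_mul_eq {A : Type} [CommRing A] [IsLocalRing A]
    (ρ : GaloisRepAdic A) (hirr : ρ.residual.IsAbsolutelyIrreducible)
    (τ : AlgebraicClosure ℚ ≃ₐ[ℚ] AlgebraicClosure ℚ)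
    (h : ∀ g : AlgebraicClosure ℚ ≃ₐ[ℚ] AlgebraicClosure ℚ,
      LinearMap.trace A ρ.V (ρ.ρ (τ * g)) = LinearMap.trace A ρ.V (ρ.ρ g)) :
    ρ.ρ τ = 1 :=
  map_eq_one_of_forall_trace_mul_eq ρ.ρ (fun W hW => hirr W hW) τ h

/-- Variant in terms of `GaloisRepAdic.trace`. -/
theorem eq_one_of_forall_trace_mul_eq' {A : Type} [CommRing A] [IsLocalRing A]
    (ρ : GaloisRepAdic A) (hirr : ρ.residual.IsAbsolutelyIrreducible)
    (τ : AlgebraicClosure ℚ ≃ₐ[ℚ] AlgebraicClosure ℚ)
    (h : ∀ g : AlgebraicClosure ℚ ≃ₐ[ℚ] AlgebraicClosure ℚ, ρ.trace (τ * g) = ρ.trace g) :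
    ρ.ρ τ = 1 :=
  eq_one_of_forall_trace_mul_eq ρ hirr τ h

/-- The span statement for a `GaloisRepAdic`. -/
theorem span_range_eq_top_of_isAbsolutelyIrreducible {A : Type} [CommRing A] [IsLocalRing A]
    (ρ : GaloisRepAdic A) (hirr : ρ.residual.IsAbsolutelyIrreducible) :
    Submodule.span A (Set.range ρ.ρ) = ⊤ := by
  have : Nontrivial ρ.V :=
    Module.nontrivial_of_finrank_pos (R := A) (by rw [ρ.finrank_eq]; norm_num)
  exact span_range_eq_top ρ.ρ (fun W hW => hirr W hW)

end Galois

end Fermat.Agent.S31.TraceRigid
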